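/-
S41lib / NEW / Packaging (helper2): from a nonzero vector `v ∈ S₂(Γ₀(M))` which is an eigenvector of
the `T_ℓ`, `ℓ ∈ P₀` (eigenvalues `lam ℓ`) and satisfies `U_q² v = v`, produce a NORMALIZED EIGENFORM `g`
(in the frozen sense `CuspForm.IsNormalizedEigenform`) with `a_ℓ(g) = lam ℓ` on `P₀` and
`a_q(g)² = 1` (`CuspForm.IsNewAt`).
-/
import Mathlib
import Fermat.Agent.Helper8.DeligneSerre
import Fermat.Agent.ProgramR.ES.Assembly
import Fermat.Prelude.Def_FreyPackage_LevelRaising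

set_option autoImplicit false
set_option linter.unusedSectionVars false

noncomputable section

namespace Fermat.Agent.S41lib.NEW

open CuspForm ModularFormClass CongruenceSubgroup
open Fermat.Agent.Helper8

variable {M : ℕ} [NeZero M]

/-- the restriction of the Hecke action to a stable subspace -/
def restrictHom (X : Submodule ℂ (CuspForm (Gamma0 M) 2))
    (hstab : ∀ t : HeckeT M, ∀ v ∈ X, (t : Module.End ℂ (CuspForm (Gamma0 M) 2)) v ∈ X) :
    HeckeT M →+* Module.End ℂ X where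
  toFun t := (t : Module.End ℂ (CuspForm (Gamma0 M) 2)).restrict (hstab t)
  map_one' := by
    apply LinearMap.ext
    intro v
    apply Subtype.ext
    rfl
  map_mul' s t := by
    apply LinearMap.ext
    intro v
    apply Subtype.ext
    rfl
  map_zero' := by
    apply LinearMap.ext
    intro v
    apply Subtype.ext
    rfl
  map_add' s t := by
    apply LinearMap.ext
    intro v
    apply Subtype.ext
    rfl

/-- A nonzero subspace stable under the full Hecke algebra contains a simultaneous eigenvector. -/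
theorem exists_eigenvector_of_stable (X : Submodule ℂ (CuspForm (Gamma0 M) 2)) (hX : X ≠ ⊥)
    (hstab : ∀ t : HeckeT M, ∀ v ∈ X, (t : Module.End ℂ (CuspForm (Gamma0 M) 2)) v ∈ X) :
    ∃ (g : CuspForm (Gamma0 M) 2) (χ : HeckeT M →+* ℂ), g ∈ X ∧ g ≠ 0 ∧
      ∀ t : HeckeT M, (t : Module.End ℂ (CuspForm (Gamma0 M) 2)) g = χ t • g := by
  have : FiniteDimensional ℂ (CuspForm (Gamma0 M) 2) :=
    Fermat.Agent.ProgramR.ES.finiteDimensional_cuspForm M
  have hne : RingHom.ker (restrictHom X hstab) ≠ ⊤ := by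
    intro htop
    have h1 : (1 : HeckeT M) ∈ RingHom.ker (restrictHom X hstab) := by rw [htop]; trivial
    rw [RingHom.mem_ker, map_one] at h1
    obtain ⟨v, hvX, hv⟩ := Submodule.exists_mem_ne_zero_of_ne_bot hX
    have h2 := congrArg (fun T : Module.End ℂ X => T ⟨v, hvX⟩) h1
    simp only [Module.End.one_apply, LinearMap.zero_apply] at h2
    exact hv (congrArg Subtype.val h2)
  obtain ⟨𝔪, h𝔪, hle⟩ := Ideal.exists_le_maximal _ hne
  have : 𝔪.IsPrime := h𝔪.isPrime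
  obtain ⟨g, χ, hg, hχ, -⟩ := exists_eigenvector_ker_le (restrictHom X hstab) 𝔪 hle
  refine ⟨g.1, χ, g.2, fun h0 => hg (Subtype.ext h0), fun t => ?_⟩
  have := congrArg Subtype.val (hχ t)
  exact this


/-- strengthened form of `Helper8.exists_normalizedEigenform`: ALL prime coefficients are given by
the eigencharacter (`T_ℓ` for `ℓ ∤ M`, `U_ℓ` for `ℓ ∣ M`). -/
theorem exists_normalizedEigenform_full {g : CuspForm (Gamma0 M) 2} (hg : g ≠ 0)
    (χ : HeckeT M →+* ℂ)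
    (hχ : ∀ t : HeckeT M, (t : Module.End ℂ (CuspForm (Gamma0 M) 2)) g = χ t • g) :
    ∃ g' : CuspForm (Gamma0 M) 2, g'.IsNormalizedEigenform ∧
      ∀ ℓ : ℕ, ℓ.Prime → qCoeff ⇑g' ℓ = eigenvalueFn χ ℓ := by
  have hc1 := qCoeff_one_ne_zero hg χ hχ
  set g' : CuspForm (Gamma0 M) 2 := (qCoeff ⇑g 1)⁻¹ • g with hg'
  have hχ' : ∀ t : HeckeT M, (t : Module.End ℂ (CuspForm (Gamma0 M) 2)) g' = χ t • g' := by
    intro t
    rw [hg', map_smul, hχ t, smul_comm]
  have hone : qCoeff ⇑g' 1 = 1 := by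
    rw [hg', qCoeff_smul, inv_mul_cancel₀ hc1]
  have hval : ∀ ℓ : ℕ, ℓ.Prime → qCoeff ⇑g' ℓ = eigenvalueFn χ ℓ := by
    intro ℓ hℓ
    have := qCoeff_rel χ hχ' hℓ 1
    rw [mul_one, hone, mul_one, if_neg (by simpa using hℓ.ne_one), mul_zero, add_zero] at this
    exact this
  have heig : FormalHecke.IsEigensystem (eLevel M) (fun n => qCoeff ⇑g' n) := by
    refine ⟨hone, fun ℓ hℓ n => ?_⟩
    show qCoeff ⇑g' (ℓ * n) + eLevel M ℓ * (if ℓ ∣ n then qCoeff ⇑g' (n / ℓ) else 0) =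
      qCoeff ⇑g' ℓ * qCoeff ⇑g' n
    rw [hval ℓ hℓ]
    exact qCoeff_rel χ hχ' hℓ n
  obtain ⟨-, hmul, hpow⟩ := isRecursive_of_isEigensystem heig
  refine ⟨g', ⟨hone, hmul, ?_, ?_⟩, hval⟩
  · intro p r hp hpN
    have := hpow p r hp
    simp only [eLevel, if_neg hpN] at this
    exact this
  · intro p r hp hpN
    have := hpow p r hp
    simp only [eLevel, if_pos hpN, zero_mul, sub_zero] at this
    exact this

/-- **Packaging.** -/
theorem exists_normalizedEigenform_isNewAt {q : ℕ} (hq : q.Prime) (hqM : q ∣ M)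
    (P₀ : Set ℕ) (lam : ℕ → ℂ) (v : CuspForm (Gamma0 M) 2) (hv : v ≠ 0)
    (hvT : ∀ (ℓ : ℕ) (hℓ : ℓ.Prime) (hℓM : ¬ ℓ ∣ M), ℓ ∈ P₀ →
      heckeTLin 2 hℓ hℓM v = lam ℓ • v)
    (hvU : heckeULin 2 hqM (heckeULin 2 hqM v) = v) :
    ∃ g : CuspForm (Gamma0 M) 2, g.IsNormalizedEigenform ∧
      (∀ ℓ : ℕ, ℓ.Prime → ¬ ℓ ∣ M → ℓ ∈ P₀ → qCoeff ⇑g ℓ = lam ℓ) ∧ g.IsNewAt q := by
  -- the stable subspace
  let X : Submodule ℂ (CuspForm (Gamma0 M) 2) :=
    { carrier := {f | (∀ (ℓ : ℕ) (hℓ : ℓ.Prime) (hℓM : ¬ ℓ ∣ M), ℓ ∈ P₀ →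
          heckeTLin 2 hℓ hℓM f = lam ℓ • f) ∧ heckeULin 2 hqM (heckeULin 2 hqM f) = f}
      add_mem' := by
        rintro f f' ⟨hf1, hf2⟩ ⟨hf1', hf2'⟩
        refine ⟨fun ℓ hℓ hℓM hℓP => ?_, ?_⟩
        · rw [map_add, hf1 ℓ hℓ hℓM hℓP, hf1' ℓ hℓ hℓM hℓP, smul_add]
        · rw [map_add, map_add, hf2, hf2']
      zero_mem' := ⟨fun ℓ hℓ hℓM _ => by rw [map_zero, smul_zero], by rw [map_zero, map_zero]⟩
      smul_mem' := by
        rintro c f ⟨hf1, hf2⟩
        refine ⟨fun ℓ hℓ hℓM hℓP => ?_, ?_⟩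
        · rw [map_smul, hf1 ℓ hℓ hℓM hℓP, smul_comm]
        · rw [map_smul, map_smul, hf2] }
  have hvX : v ∈ X := ⟨hvT, hvU⟩
  have hX : X ≠ ⊥ := fun h0 => hv (by rw [h0] at hvX; exact (Submodule.mem_bot ℂ).mp hvX)
  have hstab : ∀ t : HeckeT M, ∀ f ∈ X, (t : Module.End ℂ (CuspForm (Gamma0 M) 2)) f ∈ X := by
    rintro t f ⟨hf1, hf2⟩
    refine ⟨fun ℓ hℓ hℓM hℓP => ?_, ?_⟩
    · have hc : heckeAlgebra.T hℓ hℓM (Set.notMem_empty ℓ) * t =
          t * heckeAlgebra.T hℓ hℓM (Set.notMem_empty ℓ) := mul_comm _ _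
      have hc' := congrArg (fun s : HeckeT M =>
        (s : Module.End ℂ (CuspForm (Gamma0 M) 2)) f) hc
      simp only [MulMemClass.coe_mul, heckeAlgebra.coe_T, Module.End.mul_apply] at hc'
      rw [hc', hf1 ℓ hℓ hℓM hℓP, map_smul]
    · have hc : heckeAlgebra.U hq hqM (Set.notMem_empty q) * heckeAlgebra.U hq hqM (Set.notMem_empty q)
          * t = t * (heckeAlgebra.U hq hqM (Set.notMem_empty q) *
            heckeAlgebra.U hq hqM (Set.notMem_empty q)) := mul_comm _ _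
      have hc' := congrArg (fun s : HeckeT M =>
        (s : Module.End ℂ (CuspForm (Gamma0 M) 2)) f) hc
      simp only [MulMemClass.coe_mul, heckeAlgebra.coe_U, Module.End.mul_apply] at hc'
      rw [hc', hf2]
  obtain ⟨g, χ, hgX, hg0, hχ⟩ := exists_eigenvector_of_stable X hX hstab
  obtain ⟨g', hg'eig, hval⟩ := exists_normalizedEigenform_full hg0 χ hχ
  have hcancel : ∀ {a b : ℂ}, a • g = b • g → a = b := by
    intro a b hab
    have : (a - b) • g = 0 := by rw [sub_smul, hab, sub_self]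
    rcases smul_eq_zero.mp this with h1 | h1
    · exact sub_eq_zero.mp h1
    · exact absurd h1 hg0
  refine ⟨g', hg'eig, fun ℓ hℓ hℓM hℓP => ?_, ?_⟩
  · rw [hval ℓ hℓ, eigenvalueFn, dif_pos hℓ, dif_neg hℓM]
    apply hcancel
    rw [← hχ, heckeAlgebra.coe_T]
    exact hgX.1 ℓ hℓ hℓM hℓP
  · show qCoeff ⇑g' q ^ 2 = 1
    rw [hval q hq, eigenvalueFn, dif_pos hq, dif_pos hqM]
    apply hcancel
    have h1 := hχ (heckeAlgebra.U hq hqM (Set.notMem_empty q))
    rw [heckeAlgebra.coe_U] at h1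
    have h2 := hgX.2
    rw [h1, map_smul, h1, smul_smul] at h2
    rw [one_smul, pow_two]
    exact h2

end Fermat.Agent.S41lib.NEW
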