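/-
S41lib / NEW / AtkinLehnerOp (helper2): the Atkin–Lehner operator `W_q` on `S_k(Γ₀(N q))`
(`q ∤ N` is encoded by the Bezout relation `q x w - N y z = 1`), built on helper1's
`S31lib/PET/AtkinLehner` (`alGL`, `alConj`).
-/
import Mathlib
import Fermat.Agent.S31lib.PET.AtkinLehner

set_option autoImplicit false
set_option linter.unusedSectionVars false

noncomputable section

namespace Fermat.Agent.S41lib.NEW

open CongruenceSubgroup UpperHalfPlane ModularForm Matrix Matrix.SpecialLinearGroup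
open scoped MatrixGroups ModularForm
open Fermat.Agent.S31lib.PET

variable {N q : ℕ} [NeZero q] (x y z w : ℤ) (h : (q : ℤ) * x * w - (N : ℤ) * y * z = 1)

/-- `W γ = γ' W` with `γ' ∈ Γ₀(N q)`, for `γ ∈ Γ₀(N q)` (in `GL₂(ℝ)`). -/
theorem exists_alGL_mul {γ : GL (Fin 2) ℝ}
    (hγ : γ ∈ ((Gamma0 (N * q) : Subgroup SL(2, ℤ)) : Subgroup (GL (Fin 2) ℝ))) :
    ∃ γ' ∈ ((Gamma0 (N * q) : Subgroup SL(2, ℤ)) : Subgroup (GL (Fin 2) ℝ)),
      alGL x y z w h * γ = γ' * alGL x y z w h := by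
  obtain ⟨g, hg, rfl⟩ := Subgroup.mem_map.mp hγ
  set g₀ : ↥(Gamma0 (N * q)) := (alConjEquiv x y z w h).symm ⟨g, hg⟩ with hg₀
  have h1 : alConj x y z w h g₀ = ⟨g, hg⟩ := by
    rw [← alConjEquiv_apply, hg₀, Equiv.apply_symm_apply]
  have h2 := alGL_mul_alConj x y z w h g₀
  rw [h1] at h2
  exact ⟨_, Subgroup.mem_map.mpr ⟨(g₀ : SL(2, ℤ)), g₀.2, rfl⟩, h2⟩

open ConjAct Pointwise in
theorem Gamma0_le_conj_alGL :
    ((Gamma0 (N * q) : Subgroup SL(2, ℤ)) : Subgroup (GL (Fin 2) ℝ)) ≤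
      toConjAct (alGL x y z w h)⁻¹ •
        ((Gamma0 (N * q) : Subgroup SL(2, ℤ)) : Subgroup (GL (Fin 2) ℝ)) := by
  intro γ hγ
  obtain ⟨γ', hγ', h'⟩ := exists_alGL_mul x y z w h hγ
  rw [Subgroup.mem_pointwise_smul_iff_inv_smul_mem, map_inv, inv_inv, toConjAct_smul]
  rw [h']
  simpa using hγ'

/-- The Atkin–Lehner operator `f ↦ f ∣[k] W` on cusp forms of level `N q`. -/
def wOp (k : ℤ) : CuspForm (Gamma0 (N * q)) k →ₗ[ℂ] CuspForm (Gamma0 (N * q)) k where
  toFun f :=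
    { toFun := ⇑f ∣[k] alGL x y z w h
      slash_action_eq' := fun γ hγ => by
        obtain ⟨γ', hγ', h'⟩ := exists_alGL_mul x y z w h hγ
        rw [← SlashAction.slash_mul, h', SlashAction.slash_mul,
          SlashInvariantFormClass.slash_action_eq f γ' hγ']
      holo' := (CuspForm.translate f (alGL x y z w h)).holo'
      zero_at_cusps' := fun hc =>
        (CuspForm.translate f (alGL x y z w h)).zero_at_cusps'
          (hc.mono (Gamma0_le_conj_alGL x y z w h)) }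
  map_add' f g := DFunLike.coe_injective <| by
    show (⇑(f + g)) ∣[k] alGL x y z w h = ⇑f ∣[k] alGL x y z w h + ⇑g ∣[k] alGL x y z w h
    rw [FunLike.coe_add, SlashAction.add_slash]
  map_smul' c f := DFunLike.coe_injective <| by
    show (⇑(c • f)) ∣[k] alGL x y z w h = c • (⇑f ∣[k] alGL x y z w h)
    have hσ : UpperHalfPlane.σ (alGL x y z w h) = .refl ℝ ℂ := by
      rw [UpperHalfPlane.σ, if_pos]
      rw [det_alGL]
      exact_mod_cast Nat.pos_of_ne_zero (NeZero.ne q)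
    rw [FunLike.coe_smul, ModularForm.smul_slash, hσ, ContinuousAlgEquiv.refl_apply]

@[simp] theorem coe_wOp (k : ℤ) (f : CuspForm (Gamma0 (N * q)) k) :
    ⇑(wOp x y z w h k f) = ⇑f ∣[k] alGL x y z w h := rfl

end Fermat.Agent.S41lib.NEW
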