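/-
S41lib / NEW / Trace (helper2): the trace `S_k(Γ₀(N q)) → S_k(Γ₀(N))` (Mathlib's `CuspForm.trace`)
with the explicit coset representatives `1, γ₀ T^j (0 ≤ j < q)`, `γ₀ = (x, y; N z, q w)`,
of `Γ₀(N q) \ Γ₀(N)` (`q` prime, `q x w - N y z = 1`).
-/
import Mathlib
import Fermat.Agent.S41lib.NEW.AtkinLehnerOp

set_option autoImplicit false
set_option linter.unusedSectionVars false

noncomputable section

namespace Fermat.Agent.S41lib.NEW

open CongruenceSubgroup UpperHalfPlane ModularForm Matrix Matrix.SpecialLinearGroup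
open scoped MatrixGroups ModularForm
open Fermat.Agent.S31lib.PET

/-! ### finite relative index and the trace as a linear map -/

theorem Gamma0_mul_le (N q : ℕ) : Gamma0 (N * q) ≤ Gamma0 N := by
  intro g hg
  rw [Gamma0_mem, ZMod.intCast_zmod_eq_zero_iff_dvd] at hg ⊢
  exact dvd_trans (by push_cast; exact dvd_mul_right _ _) hg

instance instIsFiniteRelIndexGamma0 (N q : ℕ) [NeZero N] [NeZero q] :
    ((Gamma0 (N * q) : Subgroup SL(2, ℤ)) : Subgroup (GL (Fin 2) ℝ)).IsFiniteRelIndex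
      ((Gamma0 N : Subgroup SL(2, ℤ)) : Subgroup (GL (Fin 2) ℝ)) :=
  Subgroup.isFiniteRelIndex_of_le_right _ (L := 𝒮ℒ) (Subgroup.map_le_range _ _)


/-- The trace `S_k(Γ₀(N q)) → S_k(Γ₀(N))` as a linear map. -/
def trOp (N q : ℕ) [NeZero N] [NeZero q] (k : ℤ) :
    CuspForm (Gamma0 (N * q)) k →ₗ[ℂ] CuspForm (Gamma0 N) k where
  toFun f := CuspForm.trace ((Gamma0 N : Subgroup SL(2, ℤ)) : Subgroup (GL (Fin 2) ℝ)) f
  map_add' f g := DFunLike.coe_injective <| by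
    rw [FunLike.coe_add]
    simp only [CuspForm.coe_trace]
    rw [← Finset.sum_add_distrib]
    refine Finset.sum_congr rfl fun c _ => ?_
    induction c using Quotient.inductionOn with
    | h r => simp [SlashInvariantForm.quotientFunc_mk, SlashAction.add_slash]
  map_smul' c f := DFunLike.coe_injective <| by
    rw [FunLike.coe_smul]
    simp only [CuspForm.coe_trace, RingHom.id_apply]
    rw [Finset.smul_sum]
    refine Finset.sum_congr rfl fun c' _ => ?_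
    induction c' using Quotient.inductionOn with
    | h r =>
      obtain ⟨r, g, hg, rfl⟩ := r
      simp only [SlashInvariantForm.quotientFunc_mk, FunLike.coe_smul]
      rw [← map_inv]
      exact ModularForm.SL_smul_slash k g⁻¹ (⇑f) c


@[simp] theorem coe_trOp (N q : ℕ) [NeZero N] [NeZero q] (k : ℤ) (f : CuspForm (Gamma0 (N * q)) k) :
    ⇑(trOp N q k f) =
      ⇑(CuspForm.trace ((Gamma0 N : Subgroup SL(2, ℤ)) : Subgroup (GL (Fin 2) ℝ)) f) := rfl

/-! ### the coset representatives -/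

section Reps

variable {N q : ℕ} (x y z w : ℤ) (h : (q : ℤ) * x * w - (N : ℤ) * y * z = 1)

/-- the representative `γ₀ T^j = (x, x j + y; N z, N z j + q w)` -/
def rep (j : ℤ) : SL(2, ℤ) :=
  ⟨!![x, x * j + y; (N : ℤ) * z, (N : ℤ) * z * j + (q : ℤ) * w], by
    rw [Matrix.det_fin_two_of]; linear_combination h⟩

theorem coe_rep (j : ℤ) :
    ((rep x y z w h j : SL(2, ℤ)) : Matrix (Fin 2) (Fin 2) ℤ) =
      !![x, x * j + y; (N : ℤ) * z, (N : ℤ) * z * j + (q : ℤ) * w] := rfl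

theorem rep_mem_Gamma0 (j : ℤ) : rep x y z w h j ∈ Gamma0 N := by
  rw [Gamma0_mem, coe_rep]
  simp

theorem rep_apply_one_zero (j : ℤ) : (rep x y z w h j) 1 0 = (N : ℤ) * z := rfl

theorem rep_mul_inv_apply_one_zero (i j : ℤ) :
    (rep x y z w h i * (rep x y z w h j)⁻¹) 1 0 = (N : ℤ) * ((N : ℤ) * z ^ 2 * (j - i)) := by
  rw [Matrix.SpecialLinearGroup.coe_mul, Matrix.SpecialLinearGroup.coe_inv,
    Matrix.adjugate_fin_two, coe_rep, coe_rep]
  simp only [Matrix.mul_apply, Fin.sum_univ_two, Matrix.of_apply, Matrix.cons_val', Matrix.cons_val_zero,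
    Matrix.cons_val_one, Matrix.empty_val', Matrix.cons_val_fin_one]
  ring

theorem rep_mul_apply_one_zero (j : ℤ) (g : SL(2, ℤ)) :
    (rep x y z w h j * g) 1 0 = (N : ℤ) * z * g 0 0 + ((N : ℤ) * z * j + (q : ℤ) * w) * g 1 0 := by
  rw [Matrix.SpecialLinearGroup.coe_mul, coe_rep]
  simp [Matrix.mul_apply, Fin.sum_univ_two]

include h in
theorem isCoprime_q_z : IsCoprime (q : ℤ) z :=
  ⟨x * w, -((N : ℤ) * y), by linear_combination h⟩

include h in
theorem isCoprime_q_N : IsCoprime (q : ℤ) (N : ℤ) :=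
  ⟨x * w, -(y * z), by linear_combination h⟩

end Reps


/-! ### enumeration of the cosets -/

section Cosets

variable {N q : ℕ}

/-- an element of `Γ₀(N)` as an element of the subgroup of `GL(2,ℝ)` -/
def g0Elt (g : ↥(Gamma0 N)) :
    ↥((Gamma0 N : Subgroup SL(2, ℤ)) : Subgroup (GL (Fin 2) ℝ)) :=
  ⟨mapGL ℝ (g : SL(2, ℤ)), Subgroup.mem_map.mpr ⟨g, g.2, rfl⟩⟩

theorem g0Elt_mul (g g' : ↥(Gamma0 N)) : g0Elt (g * g') = g0Elt g * g0Elt g' :=
  Subtype.ext (map_mul _ _ _)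

theorem g0Elt_inv (g : ↥(Gamma0 N)) : g0Elt g⁻¹ = (g0Elt g)⁻¹ :=
  Subtype.ext (map_inv _ _)

theorem exists_g0Elt (r : ↥((Gamma0 N : Subgroup SL(2, ℤ)) : Subgroup (GL (Fin 2) ℝ))) :
    ∃ g, g0Elt g = r := by
  obtain ⟨r, g, hg, rfl⟩ := r
  exact ⟨⟨g, hg⟩, rfl⟩

theorem mk_g0Elt_eq_iff (g g' : ↥(Gamma0 N)) :
    (QuotientGroup.mk (g0Elt g) :
      ↥((Gamma0 N : Subgroup SL(2, ℤ)) : Subgroup (GL (Fin 2) ℝ)) ⧸
        ((Gamma0 (N * q) : Subgroup SL(2, ℤ)) : Subgroup (GL (Fin 2) ℝ)).subgroupOf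
          ((Gamma0 N : Subgroup SL(2, ℤ)) : Subgroup (GL (Fin 2) ℝ))) =
      QuotientGroup.mk (g0Elt g') ↔ ((g : SL(2, ℤ))⁻¹ * (g' : SL(2, ℤ))) ∈ Gamma0 (N * q) := by
  rw [QuotientGroup.eq, Subgroup.mem_subgroupOf, ← g0Elt_inv, ← g0Elt_mul]
  exact Subgroup.mem_map_iff_mem Matrix.SpecialLinearGroup.mapGL_injective

variable (x y z w : ℤ) (h : (q : ℤ) * x * w - (N : ℤ) * y * z = 1)

/-- the enumeration of `Γ₀(N)/Γ₀(N q)` by `ℙ¹(𝔽_q)` -/
def cosetMap : Option (Fin q) →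
    (↥((Gamma0 N : Subgroup SL(2, ℤ)) : Subgroup (GL (Fin 2) ℝ)) ⧸
      ((Gamma0 (N * q) : Subgroup SL(2, ℤ)) : Subgroup (GL (Fin 2) ℝ)).subgroupOf
        ((Gamma0 N : Subgroup SL(2, ℤ)) : Subgroup (GL (Fin 2) ℝ)))
  | none => QuotientGroup.mk (g0Elt 1)
  | some j => QuotientGroup.mk (g0Elt (⟨rep x y z w h (j : ℕ), rep_mem_Gamma0 x y z w h _⟩)⁻¹)

theorem mem_Gamma0_mul_iff (g : SL(2, ℤ)) : g ∈ Gamma0 (N * q) ↔ ((N : ℤ) * (q : ℤ)) ∣ g 1 0 := by
  rw [Gamma0_mem, ZMod.intCast_zmod_eq_zero_iff_dvd]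
  push_cast
  rfl


variable [NeZero N] [hq : Fact q.Prime]

include h in
theorem not_q_dvd_z : ¬ (q : ℤ) ∣ z := by
  intro hd
  have h1 : IsUnit (q : ℤ) := (isCoprime_q_z x y z w h).isUnit_of_dvd' dvd_rfl hd
  have := Int.isUnit_iff.mp h1
  have h2 := hq.out.two_le
  omega

include h in
theorem not_q_dvd_N : ¬ (q : ℤ) ∣ (N : ℤ) := by
  intro hd
  have h1 : IsUnit (q : ℤ) := (isCoprime_q_N x y z w h).isUnit_of_dvd' dvd_rfl hd
  have := Int.isUnit_iff.mp h1
  have h2 := hq.out.two_le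
  omega

theorem prime_q_int : Prime (q : ℤ) := Nat.prime_iff_prime_int.mp hq.out

theorem rep_not_mem (j : ℤ) : rep x y z w h j ∉ Gamma0 (N * q) := by
  rw [mem_Gamma0_mul_iff, rep_apply_one_zero]
  intro hd
  have hN : (N : ℤ) ≠ 0 := by exact_mod_cast NeZero.ne N
  exact not_q_dvd_z x y z w h ((mul_dvd_mul_iff_left hN).mp hd)

theorem rep_mul_inv_mem_iff (i j : ℤ) :
    rep x y z w h i * (rep x y z w h j)⁻¹ ∈ Gamma0 (N * q) ↔ (q : ℤ) ∣ j - i := by
  rw [mem_Gamma0_mul_iff, rep_mul_inv_apply_one_zero]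
  have hN : (N : ℤ) ≠ 0 := by exact_mod_cast NeZero.ne N
  rw [mul_dvd_mul_iff_left hN]
  constructor
  · intro hd
    rcases (prime_q_int (q := q)).dvd_or_dvd hd with h1 | h1
    · rcases (prime_q_int (q := q)).dvd_or_dvd h1 with h2 | h2
      · exact absurd h2 (not_q_dvd_N x y z w h)
      · exact absurd ((prime_q_int (q := q)).dvd_of_dvd_pow h2) (not_q_dvd_z x y z w h)
    · exact h1
  · intro hd
    exact dvd_mul_of_dvd_right hd _

theorem exists_rep_mul_mem (g : SL(2, ℤ)) (hg : g ∈ Gamma0 N) (hg' : g ∉ Gamma0 (N * q)) :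
    ∃ j : ℕ, j < q ∧ rep x y z w h (j : ℤ) * g ∈ Gamma0 (N * q) := by
  have hN : (N : ℤ) ≠ 0 := by exact_mod_cast NeZero.ne N
  obtain ⟨c', hc'⟩ : (N : ℤ) ∣ g 1 0 := by
    rw [Gamma0_mem, ZMod.intCast_zmod_eq_zero_iff_dvd] at hg
    exact hg
  have hqc' : ¬ (q : ℤ) ∣ c' := by
    intro hd
    apply hg'
    rw [mem_Gamma0_mul_iff, hc']
    exact mul_dvd_mul_left _ hd
  have hne : ((N : ZMod q) * (c' : ZMod q)) ≠ 0 := by
    intro h0
    have : (((N : ℤ) * c' : ℤ) : ZMod q) = 0 := by push_cast; exact h0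
    rw [ZMod.intCast_zmod_eq_zero_iff_dvd] at this
    rcases (prime_q_int (q := q)).dvd_or_dvd this with h1 | h1
    · exact not_q_dvd_N x y z w h h1
    · exact hqc' h1
  set jz : ZMod q := -((g 0 0 : ℤ) : ZMod q) * ((N : ZMod q) * (c' : ZMod q))⁻¹ with hjz
  refine ⟨jz.val, ZMod.val_lt jz, ?_⟩
  rw [mem_Gamma0_mul_iff, rep_mul_apply_one_zero, hc']
  have hkey : (q : ℤ) ∣ g 0 0 + (N : ℤ) * c' * ((jz.val : ℕ) : ℤ) := by
    rw [← ZMod.intCast_zmod_eq_zero_iff_dvd]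
    push_cast
    rw [ZMod.natCast_zmod_val, hjz, mul_comm (-_), ← mul_assoc, mul_inv_cancel₀ hne, one_mul,
      add_neg_cancel]
  obtain ⟨t, ht⟩ := hkey
  refine ⟨z * t + w * c', ?_⟩
  linear_combination (N : ℤ) * z * ht

include h in
theorem cosetMap_bijective : Function.Bijective (cosetMap x y z w h) := by
  constructor
  · rintro (_ | i) (_ | j) hij
    · rfl
    · exfalso
      rw [cosetMap, cosetMap, mk_g0Elt_eq_iff] at hij
      simp only [OneMemClass.coe_one, inv_one, one_mul, InvMemClass.coe_inv] at hij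
      exact rep_not_mem x y z w h _ (by simpa using (Gamma0 (N * q)).inv_mem hij)
    · exfalso
      rw [cosetMap, cosetMap, mk_g0Elt_eq_iff] at hij
      simp only [OneMemClass.coe_one, mul_one, InvMemClass.coe_inv, inv_inv] at hij
      exact rep_not_mem x y z w h _ hij
    · rw [cosetMap, cosetMap, mk_g0Elt_eq_iff] at hij
      simp only [InvMemClass.coe_inv, inv_inv] at hij
      rw [rep_mul_inv_mem_iff] at hij
      congr 1
      apply Fin.ext
      have hi := i.2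
      have hj := j.2
      have h0 : ((j : ℕ) : ℤ) - ((i : ℕ) : ℤ) = 0 := by
        apply Int.eq_zero_of_abs_lt_dvd hij
        rw [abs_lt]
        constructor <;> omega
      omega
  · intro c
    obtain ⟨r, rfl⟩ := QuotientGroup.mk_surjective c
    obtain ⟨g, rfl⟩ := exists_g0Elt r
    by_cases hg : (g : SL(2, ℤ)) ∈ Gamma0 (N * q)
    · refine ⟨none, ?_⟩
      rw [cosetMap, mk_g0Elt_eq_iff]
      simpa using hg
    · obtain ⟨j, hj, hmem⟩ := exists_rep_mul_mem x y z w h (g : SL(2, ℤ)) g.2 hg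
      refine ⟨some ⟨j, hj⟩, ?_⟩
      rw [cosetMap, mk_g0Elt_eq_iff]
      simpa using hmem

end Cosets

end Fermat.Agent.S41lib.NEW
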