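/-
S41lib / NEW / TraceFormula (helper2): explicit trace `Tr f = f + ∑_j f ∣ γ₀T^j`, the identity
`W · (1, j; 0, q) = q · γ₀ T^j`, hence `Tr f = f + q^{2-k} U_q (f ∣ W)`, and `W² = q · γ''`
with `γ'' ∈ Γ₀(N q)`, i.e. `(f∣W)∣W = q^{k-2} f`.
-/
import Mathlib
import Fermat.Agent.S41lib.NEW.Trace
import Fermat.Agent.S16lib.Op.WMat
import Fermat.Prelude.Def_ModularForm_HeckeOperatorForms

set_option autoImplicit false
set_option linter.unusedSectionVars false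

noncomputable section

namespace Fermat.Agent.S41lib.NEW

open CongruenceSubgroup UpperHalfPlane ModularForm Matrix Matrix.SpecialLinearGroup
open scoped MatrixGroups ModularForm
open Fermat.Agent.S31lib.PET Fermat.Agent.S16lib.Op

variable {N q : ℕ} [NeZero N] [hq : Fact q.Prime]
  (x y z w : ℤ) (h : (q : ℤ) * x * w - (N : ℤ) * y * z = 1)

/-- **Explicit trace**: `Tr f = f + Σ_{j<q} f ∣ γ₀ T^j`. -/
theorem coe_trOp_eq {k : ℤ} (f : CuspForm (Gamma0 (N * q)) k) :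
    ⇑(trOp N q k f) = ⇑f + ∑ j ∈ Finset.range q, ⇑f ∣[k] rep x y z w h (j : ℤ) := by
  rw [coe_trOp, CuspForm.coe_trace]
  let _ : Fintype (↥((Gamma0 N : Subgroup SL(2, ℤ)) : Subgroup (GL (Fin 2) ℝ)) ⧸
      ((Gamma0 (N * q) : Subgroup SL(2, ℤ)) : Subgroup (GL (Fin 2) ℝ)).subgroupOf
        ((Gamma0 N : Subgroup SL(2, ℤ)) : Subgroup (GL (Fin 2) ℝ))) := Fintype.ofFinite _
  refine (Function.Bijective.sum_comp (cosetMap_bijective x y z w h) _).symm.trans ?_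
  rw [Fintype.sum_option, ← Fin.sum_univ_eq_sum_range (fun j => (⇑f) ∣[k] rep x y z w h (j : ℤ)) q]
  congr 1
  · rw [cosetMap]
    change SlashInvariantForm.quotientFunc f ⟦g0Elt 1⟧ = _
    rw [SlashInvariantForm.quotientFunc_mk]
    simp [g0Elt]
  · refine Finset.sum_congr rfl fun j _ => ?_
    rw [cosetMap]
    change SlashInvariantForm.quotientFunc f ⟦g0Elt _⟧ = _
    rw [SlashInvariantForm.quotientFunc_mk]
    simp [g0Elt]
    rfl


theorem q_ne_zero_real : (q : ℝ) ≠ 0 := Nat.cast_ne_zero.mpr hq.out.ne_zero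

/-- `W · (1, j; 0, q) = q · γ₀ T^j` in `GL₂(ℝ)`. -/
theorem alGL_mul_heckeMatrix (j : ℕ) :
    alGL x y z w h * heckeMatrix q j =
      scalarGL (q : ℝ) q_ne_zero_real * (mapGL ℝ (rep x y z w h (j : ℤ)) : GL (Fin 2) ℝ) := by
  apply Matrix.GeneralLinearGroup.ext
  intro a b
  rw [Matrix.GeneralLinearGroup.coe_mul, Matrix.GeneralLinearGroup.coe_mul, coe_alGL,
    val_heckeMatrix hq.out.ne_zero, val_scalarGL, coe_mapGL_eq, coe_rep, alMat]
  fin_cases a <;> fin_cases b <;>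
    simp [Matrix.mul_apply, Fin.sum_univ_two] <;> ring

/-- `(f ∣ W) ∣ (1, j; 0, q) = q^{k-2} • f ∣ γ₀ T^j`. -/
theorem slash_alGL_slash_heckeMatrix (k : ℤ) (f : ℍ → ℂ) (j : ℕ) :
    (f ∣[k] alGL x y z w h) ∣[k] heckeMatrix q j =
      ((q : ℂ) ^ (k - 2)) • (f ∣[k] rep x y z w h (j : ℤ)) := by
  rw [← SlashAction.slash_mul, alGL_mul_heckeMatrix, SlashAction.slash_mul, slash_scalarGL,
    ModularForm.SL_slash]
  have hσ : UpperHalfPlane.σ (mapGL ℝ (rep x y z w h (j : ℤ)) : GL (Fin 2) ℝ) = .refl ℝ ℂ := by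
    rw [UpperHalfPlane.σ, if_pos]
    simp
  rw [ModularForm.smul_slash, hσ, ContinuousAlgEquiv.refl_apply]
  push_cast
  rfl

/-- `U_q (f ∣ W) = q^{k-2} Σ_j f ∣ γ₀ T^j`. -/
theorem heckeU_slash_alGL (k : ℤ) (f : ℍ → ℂ) :
    heckeU k q (f ∣[k] alGL x y z w h) =
      ((q : ℂ) ^ (k - 2)) • ∑ j ∈ Finset.range q, f ∣[k] rep x y z w h (j : ℤ) := by
  rw [heckeU_def, Finset.smul_sum]
  exact Finset.sum_congr rfl fun j _ => slash_alGL_slash_heckeMatrix x y z w h k f j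


/-! ### `W² = q · γ''` -/

/-- `γ'' = W² / q ∈ Γ₀(N q)` -/
def sqElt : SL(2, ℤ) :=
  ⟨!![(q : ℤ) * x ^ 2 + y * (N : ℤ) * z, x * y + y * w;
      (N : ℤ) * (q : ℤ) * (z * (x + w)), (N : ℤ) * z * y + (q : ℤ) * w ^ 2], by
    rw [Matrix.det_fin_two_of]
    linear_combination ((q : ℤ) * x * w - (N : ℤ) * y * z + 1) * h⟩

theorem coe_sqElt :
    ((sqElt x y z w h : SL(2, ℤ)) : Matrix (Fin 2) (Fin 2) ℤ) =
      !![(q : ℤ) * x ^ 2 + y * (N : ℤ) * z, x * y + y * w;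
        (N : ℤ) * (q : ℤ) * (z * (x + w)), (N : ℤ) * z * y + (q : ℤ) * w ^ 2] := rfl

theorem sqElt_mem : sqElt x y z w h ∈ Gamma0 (N * q) := by
  rw [mem_Gamma0_mul_iff]
  exact ⟨z * (x + w), rfl⟩

theorem alGL_mul_alGL :
    alGL x y z w h * alGL x y z w h =
      scalarGL (q : ℝ) q_ne_zero_real * (mapGL ℝ (sqElt x y z w h) : GL (Fin 2) ℝ) := by
  apply Matrix.GeneralLinearGroup.ext
  intro a b
  rw [Matrix.GeneralLinearGroup.coe_mul, Matrix.GeneralLinearGroup.coe_mul, coe_alGL,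
    val_scalarGL, coe_mapGL_eq, coe_sqElt, alMat]
  fin_cases a <;> fin_cases b <;>
    simp [Matrix.mul_apply, Fin.sum_univ_two] <;> ring

/-- `(f ∣ W) ∣ W = q^{k-2} f` on `S_k(Γ₀(N q))`. -/
theorem wOp_wOp {k : ℤ} (f : CuspForm (Gamma0 (N * q)) k) :
    wOp x y z w h k (wOp x y z w h k f) = ((q : ℂ) ^ (k - 2)) • f :=
  DFunLike.coe_injective <| by
    rw [coe_wOp, coe_wOp, ← SlashAction.slash_mul, alGL_mul_alGL, SlashAction.slash_mul,
      slash_scalarGL, FunLike.coe_smul]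
    have hσ : UpperHalfPlane.σ (mapGL ℝ (sqElt x y z w h) : GL (Fin 2) ℝ) = .refl ℝ ℂ := by
      rw [UpperHalfPlane.σ, if_pos]
      simp
    rw [ModularForm.smul_slash, hσ, ContinuousAlgEquiv.refl_apply]
    have hinv : (⇑f) ∣[k] (mapGL ℝ (sqElt x y z w h) : GL (Fin 2) ℝ) = ⇑f :=
      SlashInvariantFormClass.slash_action_eq f _
        (Subgroup.mem_map.mpr ⟨_, sqElt_mem x y z w h, rfl⟩)
    rw [hinv]
    push_cast
    rfl

end Fermat.Agent.S41lib.NEW
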