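/-
S41lib / NEW / NewSub (helper2): the `q`-new subspace of `S₂(Γ₀(N q))`,
`newSub = ker Tr ⊓ ker (Tr ∘ W)`, on which `U_q = -W` and `U_q² = 1`.
-/
import Mathlib
import Fermat.Agent.S41lib.NEW.TraceFormula
import Fermat.Prelude.Def_CuspForm_HeckeAlgebra

set_option autoImplicit false
set_option linter.unusedSectionVars false

noncomputable section

namespace Fermat.Agent.S41lib.NEW

open CongruenceSubgroup UpperHalfPlane ModularForm Matrix Matrix.SpecialLinearGroup
open scoped MatrixGroups ModularForm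
open Fermat.Agent.S31lib.PET Fermat.Agent.S16lib.Op

variable {N q : ℕ} [NeZero N] [hq : Fact q.Prime]
  (x y z w : ℤ) (h : (q : ℤ) * x * w - (N : ℤ) * y * z = 1)

instance instNeZeroMul : NeZero (N * q) := ⟨Nat.mul_ne_zero (NeZero.ne N) hq.out.ne_zero⟩

/-- the `q`-new subspace of `S₂(Γ₀(N q))` -/
def newSub : Submodule ℂ (CuspForm (Gamma0 (N * q)) 2) :=
  LinearMap.ker (trOp N q 2) ⊓ LinearMap.ker ((trOp N q 2).comp (wOp x y z w h 2))

theorem mem_newSub {f : CuspForm (Gamma0 (N * q)) 2} :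
    f ∈ newSub x y z w h ↔ trOp N q 2 f = 0 ∧ trOp N q 2 (wOp x y z w h 2 f) = 0 := by
  rw [newSub, Submodule.mem_inf, LinearMap.mem_ker, LinearMap.mem_ker, LinearMap.comp_apply]

/-- weight 2: `W` is an involution -/
theorem wOp_wOp_two (f : CuspForm (Gamma0 (N * q)) 2) :
    wOp x y z w h 2 (wOp x y z w h 2 f) = f := by
  rw [wOp_wOp]
  simp

/-- weight 2: `Tr f = f + U_q (W f)` (as functions on `ℍ`) -/
theorem coe_trOp_two (f : CuspForm (Gamma0 (N * q)) 2) :
    ⇑(trOp N q 2 f) =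
      ⇑f + ⇑(CuspForm.heckeULin 2 (Dvd.intro_left N rfl : q ∣ N * q) (wOp x y z w h 2 f)) := by
  rw [coe_trOp_eq x y z w h, CuspForm.coe_heckeULin_apply, coe_wOp, heckeU_slash_alGL]
  simp

theorem heckeULin_eq_neg_wOp {f : CuspForm (Gamma0 (N * q)) 2} (hf : f ∈ newSub x y z w h) :
    CuspForm.heckeULin 2 (Dvd.intro_left N rfl : q ∣ N * q) f = - wOp x y z w h 2 f := by
  have h2 := ((mem_newSub x y z w h).mp hf).2
  have h3 := coe_trOp_two x y z w h (wOp x y z w h 2 f)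
  rw [h2, wOp_wOp_two] at h3
  apply DFunLike.coe_injective
  rw [FunLike.coe_neg]
  have h4 : (⇑(0 : CuspForm (Gamma0 N) 2) : ℍ → ℂ) = 0 := rfl
  rw [h4] at h3
  exact (eq_neg_of_add_eq_zero_right h3.symm)

/-- **`U_q² = 1` on the `q`-new subspace.** -/
theorem heckeULin_heckeULin_of_mem_newSub {f : CuspForm (Gamma0 (N * q)) 2}
    (hf : f ∈ newSub x y z w h) :
    CuspForm.heckeULin 2 (Dvd.intro_left N rfl : q ∣ N * q)
      (CuspForm.heckeULin 2 (Dvd.intro_left N rfl : q ∣ N * q) f) = f := by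
  rw [heckeULin_eq_neg_wOp x y z w h hf, map_neg]
  have h1 := ((mem_newSub x y z w h).mp hf).1
  have h3 := coe_trOp_two x y z w h f
  rw [h1] at h3
  have h4 : (⇑(0 : CuspForm (Gamma0 N) 2) : ℍ → ℂ) = 0 := rfl
  rw [h4] at h3
  apply DFunLike.coe_injective
  rw [FunLike.coe_neg]
  have := eq_neg_of_add_eq_zero_right h3.symm
  rw [this, neg_neg]

end Fermat.Agent.S41lib.NEW
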