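/-
S41lib / NEW / Real (helper2): eigenvalues of `T_ℓ` (`ℓ ∤ M`) on `S₂(Γ₀(M))` are real
(self-adjointness for the Petersson form of `S31lib/PET/Main`).
-/
import Mathlib
import Fermat.Agent.S31lib.PET.Main

set_option autoImplicit false
set_option linter.unusedSectionVars false

noncomputable section

namespace Fermat.Agent.S41lib.NEW

open CongruenceSubgroup CuspForm
open Fermat.Agent.S31lib.PET
open scoped ComplexConjugate

variable {M : ℕ} [NeZero M]

/-- An eigenvalue of `T_ℓ`, `ℓ ∤ M`, on `S₂(Γ₀(M))` is real. -/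
theorem heckeT_eigenvalue_real {ℓ : ℕ} (hℓ : ℓ.Prime) (hℓM : ¬ ℓ ∣ M)
    {v : CuspForm (Gamma0 M) 2} (hv : v ≠ 0) {μ : ℂ}
    (hμ : heckeTLin 2 hℓ hℓM v = μ • v) : conj μ = μ := by
  obtain ⟨ψ, hψ, hfin, hU⟩ := exists_partition M
  have hadj := petInt_heckeT_adjoint hψ hfin ℓ hℓ hℓM v v
  rw [hμ, petInt_smul_right] at hadj
  have h1 : petInt ψ (μ • v) v = conj μ * petInt ψ v v := by
    rw [petInt_conj_symm v (μ • v), petInt_smul_right, map_mul, ← petInt_conj_symm v v]
  rw [h1] at hadj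
  have hne : petInt ψ v v ≠ 0 := fun h0 => hv (petInt_definite hψ hfin hU v h0)
  exact mul_right_cancel₀ hne hadj

end Fermat.Agent.S41lib.NEW
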