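/-
S41lib / NEW / Main (helper2): the modular-forms endgame of level raising (S41).

INPUT (from the cohomological blocks, via the Eichler–Shimura bridge): a nonzero `q`-new vector
`v ∈ newSub ⊆ S₂(Γ₀(N q))` which is an eigenvector of the `T_ℓ` for the primes `ℓ` in a set `P₀`
(eigenvalues `lam ℓ`).
OUTPUT: a normalized eigenform `g` of level `N q` (frozen sense) with `a_ℓ(g) = lam ℓ` on `P₀` and
`g.IsNewAt q` (`a_q(g)² = 1`); and the verbatim conclusion of S41.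
-/
import Mathlib
import Fermat.Agent.S41lib.NEW.NewSub
import Fermat.Agent.S41lib.NEW.Packaging
import Fermat.Agent.S41lib.NEW.Real
import Fermat.Prelude.Def_FLTPrelim_ModularRep

set_option autoImplicit false
set_option linter.unusedSectionVars false

noncomputable section

namespace Fermat.Agent.S41lib.NEW

open CongruenceSubgroup CuspForm ModularFormClass

variable {N q : ℕ} [NeZero N] [hq : Fact q.Prime]
  (x y z w : ℤ) (h : (q : ℤ) * x * w - (N : ℤ) * y * z = 1)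

/-- Bezout data exist when `q ∤ N`. -/
theorem exists_bezout (hqN : ¬ q ∣ N) :
    ∃ x y : ℤ, (q : ℤ) * x * 1 - (N : ℤ) * y * 1 = 1 := by
  have hcop : IsCoprime (q : ℤ) (N : ℤ) :=
    Nat.isCoprime_iff_coprime.mpr ((Nat.Prime.coprime_iff_not_dvd hq.out).mpr hqN)
  obtain ⟨a, b, hab⟩ := hcop
  exact ⟨a, -b, by linear_combination hab⟩

/-- **Endgame**: a nonzero `q`-new `T_ℓ`-eigenvector gives a normalized eigenform new at `q`. -/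
theorem exists_eigenform_isNewAt_of_mem_newSub
    (P₀ : Set ℕ) (lam : ℕ → ℂ) (v : CuspForm (Gamma0 (N * q)) 2) (hv : v ≠ 0)
    (hvnew : v ∈ newSub x y z w h)
    (hvT : ∀ (ℓ : ℕ) (hℓ : ℓ.Prime) (hℓM : ¬ ℓ ∣ N * q), ℓ ∈ P₀ →
      heckeTLin 2 hℓ hℓM v = lam ℓ • v) :
    ∃ g : CuspForm (Gamma0 (N * q)) 2, g.IsNormalizedEigenform ∧
      (∀ ℓ : ℕ, ℓ.Prime → ¬ ℓ ∣ N * q → ℓ ∈ P₀ → qCoeff ⇑g ℓ = lam ℓ) ∧ g.IsNewAt q :=
  exists_normalizedEigenform_isNewAt hq.out (Dvd.intro_left N rfl) P₀ lam v hv hvT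
    (heckeULin_heckeULin_of_mem_newSub x y z w h hvnew)

/-- **The conclusion of S41**, from a `q`-new eigenvector whose eigenvalues are congruent to the
`a_ℓ(W)` modulo a maximal ideal `𝔪'` over `p`. -/
theorem s41_conclusion_of_mem_newSub (W : WeierstrassCurve ℤ) (p : ℕ)
    (lam : ℕ → integralClosure ℤ ℂ) (𝔪' : Ideal (integralClosure ℤ ℂ))
    (hmax : 𝔪'.IsMaximal) (hp𝔪' : (p : integralClosure ℤ ℂ) ∈ 𝔪')
    (hcong : ∀ ℓ : ℕ, ℓ.Prime → W.IsGoodPrimeFor ℓ → ¬ ℓ ∣ N * q → ℓ ≠ p →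
      lam ℓ - ((W.apOfModel ℓ : ℤ) : integralClosure ℤ ℂ) ∈ 𝔪')
    (v : CuspForm (Gamma0 (N * q)) 2) (hv : v ≠ 0) (hvnew : v ∈ newSub x y z w h)
    (hvT : ∀ (ℓ : ℕ) (hℓ : ℓ.Prime) (hℓM : ¬ ℓ ∣ N * q), W.IsGoodPrimeFor ℓ → ℓ ≠ p →
      heckeTLin 2 hℓ hℓM v = ((lam ℓ : integralClosure ℤ ℂ) : ℂ) • v) :
    ∃ (g : CuspForm (Gamma0 (N * q)) 2) (𝔪' : Ideal (integralClosure ℤ ℂ)),
      g.IsNormalizedEigenform ∧ 𝔪'.IsMaximal ∧ (p : integralClosure ℤ ℂ) ∈ 𝔪' ∧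
      (∀ ℓ : ℕ, ℓ.Prime → W.IsGoodPrimeFor ℓ → ¬ ℓ ∣ N * q → ℓ ≠ p →
        ∃ a : integralClosure ℤ ℂ, (a : ℂ) = ModularFormClass.qCoeff g ℓ ∧
          a - ((W.apOfModel ℓ : ℤ) : integralClosure ℤ ℂ) ∈ 𝔪') ∧
      g.IsNewAt q := by
  obtain ⟨g, hg, hgl, hgnew⟩ := exists_eigenform_isNewAt_of_mem_newSub x y z w h
    {ℓ | W.IsGoodPrimeFor ℓ ∧ ℓ ≠ p} (fun ℓ => ((lam ℓ : integralClosure ℤ ℂ) : ℂ)) v hv hvnew
    (fun ℓ hℓ hℓM hℓP => hvT ℓ hℓ hℓM hℓP.1 hℓP.2)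
  exact ⟨g, 𝔪', hg, hmax, hp𝔪', fun ℓ hℓ hgood hℓM hℓp =>
    ⟨lam ℓ, (hgl ℓ hℓ hℓM ⟨hgood, hℓp⟩).symm, hcong ℓ hℓ hgood hℓM hℓp⟩, hgnew⟩

end Fermat.Agent.S41lib.NEW
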